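import Fermat.Agent.GoldbachSchnirelmann.Selberg
import Mathlib.Data.Int.CardIntervalMod
import Mathlib.Data.Nat.ChineseRemainder
import Mathlib.NumberTheory.Primorial
import Mathlib.Algebra.Field.ZMod
import Mathlib.NumberTheory.Harmonic.Bounds
import Mathlib.Analysis.PSeries
import Mathlib.Analysis.SpecialFunctions.Pow.Real

/-!
# Pairs of primes with a given difference or sum

For even `a ≠ 0`, at most `C (∑_{d ∣ a} 1 / d) X / log ^ 2 X` of the `n ≤ X` have both `n` and
`|n + a|` prime.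
-/

set_option autoImplicit false

noncomputable section

namespace FA.GoldbachSchnirelmann

open Finset BoundingSieve

variable (a : ℤ)

/-- The roots of `x (x + a)` modulo `d`. -/
def pairRoots (d : ℕ) : Finset ℕ :=
  (range d).filter fun r => (d : ℤ) ∣ (r : ℤ) * ((r : ℤ) + a)

theorem card_pairRoots_le (d : ℕ) : #(pairRoots a d) ≤ d :=
  (card_filter_le _ _).trans (card_range d).le

theorem dvd_pair_mod_iff {d : ℕ} (n : ℕ) :
    (d : ℤ) ∣ ((n % d : ℕ) : ℤ) * (((n % d : ℕ) : ℤ) + a) ↔ (d : ℤ) ∣ (n : ℤ) * (n + a) := by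
  simp only [← ZMod.intCast_zmod_eq_zero_iff_dvd]
  simp

theorem card_pairRoots_mul {m n : ℕ} (hmn : m.Coprime n) :
    #(pairRoots a (m * n)) = #(pairRoots a m) * #(pairRoots a n) := by
  rcases Nat.eq_zero_or_pos m with rfl | hm
  · simp [pairRoots]
  rcases Nat.eq_zero_or_pos n with rfl | hn
  · simp [pairRoots]
  rw [← card_product]
  refine card_nbij' (fun r => (r % m, r % n))
    (fun q => (Nat.chineseRemainder hmn q.1 q.2 : ℕ)) ?_ ?_ ?_ ?_
  · intro r hr
    simp only [mem_coe, pairRoots, mem_filter, mem_range] at hr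
    simp only [mem_coe, mem_product, pairRoots, mem_filter, mem_range, dvd_pair_mod_iff]
    exact ⟨⟨Nat.mod_lt _ hm, dvd_trans (Int.natCast_dvd_natCast.2 (dvd_mul_right m n)) hr.2⟩,
      Nat.mod_lt _ hn, dvd_trans (Int.natCast_dvd_natCast.2 (dvd_mul_left n m)) hr.2⟩
  · intro q hq
    simp only [mem_coe, mem_product, pairRoots, mem_filter, mem_range] at hq
    obtain ⟨⟨h1, h1'⟩, h2, h2'⟩ := hq
    obtain ⟨k, hk⟩ : ∃ k, k = (Nat.chineseRemainder hmn q.1 q.2 : ℕ) := ⟨_, rfl⟩
    have hkm : k % m = q.1 := by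
      rw [hk, (Nat.chineseRemainder hmn q.1 q.2).2.1, Nat.mod_eq_of_lt h1]
    have hkn : k % n = q.2 := by
      rw [hk, (Nat.chineseRemainder hmn q.1 q.2).2.2, Nat.mod_eq_of_lt h2]
    simp only [mem_coe, pairRoots, mem_filter, mem_range, ← hk]
    refine ⟨hk ▸ Nat.chineseRemainder_lt_mul hmn _ _ hm.ne' hn.ne', ?_⟩
    rw [← hkm, dvd_pair_mod_iff] at h1'
    rw [← hkn, dvd_pair_mod_iff] at h2'
    push_cast
    exact (Nat.isCoprime_iff_coprime.2 hmn).mul_dvd h1' h2'
  · intro r hr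
    simp only [mem_coe, pairRoots, mem_filter, mem_range] at hr
    exact ((Nat.chineseRemainder_modEq_unique hmn (Nat.mod_modEq r m).symm
      (Nat.mod_modEq r n).symm).symm.eq_of_lt_of_lt
        (Nat.chineseRemainder_lt_mul hmn _ _ hm.ne' hn.ne') hr.1)
  · intro q hq
    simp only [mem_coe, mem_product, pairRoots, mem_filter, mem_range] at hq
    have h := (Nat.chineseRemainder hmn q.1 q.2).2
    exact Prod.ext (Eq.trans h.1 (Nat.mod_eq_of_lt hq.1.1))
      (Eq.trans h.2 (Nat.mod_eq_of_lt hq.2.1))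

/-- The density of the roots. -/
def pairNu : ArithmeticFunction ℝ :=
  ⟨fun d => (#(pairRoots a d) : ℝ) / d, by simp⟩

theorem pairNu_apply (d : ℕ) : pairNu a d = (#(pairRoots a d) : ℝ) / d := rfl

theorem pairNu_isMultiplicative : (pairNu a).IsMultiplicative := by
  refine ⟨by simp [pairNu_apply, pairRoots], fun {m n} hmn => ?_⟩
  rw [pairNu_apply, pairNu_apply, pairNu_apply, card_pairRoots_mul a hmn]
  push_cast
  rw [div_mul_div_comm]

/-- The number of roots modulo a prime. -/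
def rho (p : ℕ) : ℕ := if (p : ℤ) ∣ a then 1 else 2

theorem card_pairRoots_prime {p : ℕ} (hp : p.Prime) : #(pairRoots a p) = rho a p := by
  have := Fact.mk hp
  have hset : pairRoots a p = {0, (-(a : ZMod p)).val} := by
    ext r
    simp only [pairRoots, mem_filter, mem_range, mem_insert, mem_singleton,
      ← ZMod.intCast_zmod_eq_zero_iff_dvd]
    push_cast
    rw [mul_eq_zero, add_eq_zero_iff_eq_neg]
    constructor
    · rintro ⟨hr, h | h⟩
      · left
        exact Nat.eq_zero_of_dvd_of_lt ((ZMod.natCast_eq_zero_iff _ _).1 h) hr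
      · right
        rw [← h, ZMod.val_natCast, Nat.mod_eq_of_lt hr]
    · rintro (rfl | rfl)
      · simp [hp.pos]
      · exact ⟨ZMod.val_lt _, Or.inr (by simp)⟩
  rw [hset, rho]
  split_ifs with h
  · simp [(ZMod.intCast_zmod_eq_zero_iff_dvd a p).2 h]
  · rw [card_pair]
    intro h0
    refine h ((ZMod.intCast_zmod_eq_zero_iff_dvd a p).1 ?_)
    simpa using (ZMod.val_eq_zero _).1 h0.symm

theorem card_pairRoots_squarefree {d : ℕ} (hd : Squarefree d) :
    #(pairRoots a d) = ∏ p ∈ d.primeFactors, rho a p := by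
  induction d using Nat.recOnPosPrimePosCoprime with
  | prime_pow p n hp hn =>
    rw [Nat.squarefree_pow_iff hp.ne_one (Nat.pos_iff_ne_zero.1 hn)] at hd
    rw [hd.2, pow_one, hp.primeFactors, prod_singleton, card_pairRoots_prime a hp]
  | zero => exact absurd hd not_squarefree_zero
  | one => simp [pairRoots]
  | coprime x y hx hy hxy ihx ihy =>
    rw [card_pairRoots_mul a hxy, ihx (hd.of_mul_left), ihy (hd.of_mul_right),
      hxy.primeFactors_mul, prod_union hxy.disjoint_primeFactors]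

/-- The multiples of `d` among the values, up to an error `d`. -/
theorem abs_count_sub_le (X d : ℕ) (hd : 0 < d) :
    |(#((Ioc 0 X).filter fun n : ℕ => (d : ℤ) ∣ (n : ℤ) * (n + a)) : ℝ) - pairNu a d * X| ≤ d := by
  have hcard : #((Ioc 0 X).filter fun n : ℕ => (d : ℤ) ∣ (n : ℤ) * (n + a)) =
      ∑ r ∈ pairRoots a d, #((Ioc 0 X).filter fun n => n % d = r) := by
    rw [card_eq_sum_card_fiberwise (f := fun n => n % d) (t := pairRoots a d) fun n hn => ?_]
    · refine sum_congr rfl fun r hr => ?_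
      simp only [pairRoots, mem_filter] at hr
      rw [filter_filter]
      congr 1
      refine filter_congr fun n _ => ⟨fun h => h.2, fun h => ⟨?_, h⟩⟩
      rw [← dvd_pair_mod_iff, h]
      exact hr.2
    · simp only [mem_coe, mem_filter] at hn
      simp only [mem_coe, pairRoots, mem_filter, mem_range, dvd_pair_mod_iff]
      exact ⟨Nat.mod_lt _ hd, hn.2⟩
  have hone : ∀ r ∈ pairRoots a d,
      |(#((Ioc 0 X).filter fun n => n % d = r) : ℝ) - X / d| ≤ 1 := by
    intro r hr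
    have hrd : r < d := mem_range.1 (mem_filter.1 hr).1
    have h := Nat.Ioc_filter_modEq_card 0 X hd r
    have heq : ((Ioc 0 X).filter fun x => x ≡ r [MOD d]) =
        (Ioc 0 X).filter fun n => n % d = r := by
      refine filter_congr fun n _ => ?_
      rw [Nat.ModEq, Nat.mod_eq_of_lt hrd]
    rw [heq] at h
    obtain ⟨k, hk⟩ : ∃ k, k = #((Ioc 0 X).filter fun n => n % d = r) := ⟨_, rfl⟩
    rw [← hk] at h ⊢
    have hfl : ⌊((0 : ℕ) - (r : ℚ)) / (d : ℚ)⌋ ≤ ⌊((X : ℚ) - r) / d⌋ := by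
      refine Int.floor_mono ?_
      gcongr
      simp
    rw [max_eq_left (by push_cast at hfl ⊢; omega)] at h
    have h1 : (k : ℚ) - X / d ≤ 1 ∧ -1 ≤ (k : ℚ) - X / d := by
      have e : (k : ℚ) = (⌊((X : ℚ) - r) / d⌋ : ℚ) - (⌊((0 : ℕ) - (r : ℚ)) / (d : ℚ)⌋ : ℚ) := by
        exact_mod_cast h
      have e2 : ((X : ℚ) - r) / d - ((0 : ℕ) - (r : ℚ)) / (d : ℚ) = X / d := by
        push_cast
        ring
      constructor <;> linarith [Int.floor_le (((X : ℚ) - r) / d),
        Int.lt_floor_add_one (((X : ℚ) - r) / d), Int.floor_le (((0 : ℕ) - (r : ℚ)) / (d : ℚ)),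
        Int.lt_floor_add_one (((0 : ℕ) - (r : ℚ)) / (d : ℚ))]
    rw [abs_le]
    have h2 : ((((k : ℚ) - X / d : ℚ)) : ℝ) = (k : ℝ) - X / d := by push_cast; rfl
    rw [← h2]
    constructor <;> [exact_mod_cast h1.2; exact_mod_cast h1.1]
  rw [hcard, pairNu_apply]
  push_cast
  rw [show (#(pairRoots a d) : ℝ) / d * X = ∑ _r ∈ pairRoots a d, (X : ℝ) / d by
    rw [sum_const, nsmul_eq_mul]; ring, ← sum_sub_distrib]
  refine (abs_sum_le_sum_abs _ _).trans ((sum_le_sum hone).trans ?_)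
  simp only [sum_const, nsmul_eq_mul, mul_one]
  exact_mod_cast card_pairRoots_le a d

/-- The sieve for the values `|n (n + a)|`, `n ≤ X`, and the primes up to `z`. -/
def pairSieve (X z : ℕ) (ha : (2 : ℤ) ∣ a) : BoundingSieve where
  support := (Ioc 0 X).image fun n : ℕ => ((n : ℤ) * (n + a)).natAbs
  prodPrimes := primorial z
  prodPrimes_squarefree := squarefree_primorial z
  weights m := #((Ioc 0 X).filter fun n : ℕ => ((n : ℤ) * (n + a)).natAbs = m)
  weights_nonneg _ := Nat.cast_nonneg _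
  totalMass := X
  nu := pairNu a
  nu_mult := pairNu_isMultiplicative a
  nu_pos_of_prime p hp _ := by
    rw [pairNu_apply, card_pairRoots_prime a hp, rho]
    have := hp.pos
    split_ifs <;> positivity
  nu_lt_one_of_prime p hp _ := by
    rw [pairNu_apply, card_pairRoots_prime a hp, rho, div_lt_one (by exact_mod_cast hp.pos),
      Nat.cast_lt]
    split_ifs with h
    · exact hp.one_lt
    · refine lt_of_le_of_ne hp.two_le fun h2 => h ?_
      rw [← h2]
      exact ha

variable {a}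

theorem pairSieve_rem (X z : ℕ) (ha : (2 : ℤ) ∣ a) {d : ℕ}
    (hd : d ∈ Nat.divisors (pairSieve a X z ha).prodPrimes) :
    |(pairSieve a X z ha).rem d| ≤ d := by
  convert abs_count_sub_le a X d (Nat.pos_of_mem_divisors hd) using 3
  simp only [rem, multSum, pairSieve]
  congr 1
  rw [card_eq_sum_card_fiberwise (f := fun n : ℕ => ((n : ℤ) * (n + a)).natAbs)
    (t := ((Ioc 0 X).image fun n : ℕ => ((n : ℤ) * (n + a)).natAbs)) fun n hn =>
      mem_coe.2 (mem_image_of_mem _ (mem_filter.1 (mem_coe.1 hn)).1)]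
  push_cast
  refine sum_congr rfl fun m _ => ?_
  rw [filter_filter]
  split_ifs with hdm
  · congr 2
    refine filter_congr fun n _ => ⟨fun h => ⟨?_, h⟩, fun h => h.2⟩
    rw [Int.natCast_dvd, h]
    exact hdm
  · rw [eq_comm, Nat.cast_eq_zero, card_eq_zero, filter_eq_empty_iff]
    rintro n _ ⟨h1, h2⟩
    rw [Int.natCast_dvd, h2] at h1
    exact hdm h1

theorem pairSieve_nu (X z : ℕ) (ha : (2 : ℤ) ∣ a) {d : ℕ}
    (hd : d ∈ Nat.divisors (pairSieve a X z ha).prodPrimes) :
    1 / (d : ℝ) ≤ (pairSieve a X z ha).nu d := by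
  show 1 / (d : ℝ) ≤ pairNu a d
  rw [pairNu_apply, card_pairRoots_squarefree a
    (squarefree_of_dvd_prodPrimes (Nat.dvd_of_mem_divisors hd))]
  gcongr
  rw [Nat.one_le_cast]
  exact Nat.one_le_iff_ne_zero.2 (prod_ne_zero_iff.2 fun p _ => by
    unfold rho; split_ifs <;> norm_num)

/-! ### The lower bound for Selberg's denominator -/

/-- `∑_{d ∣ a} 1 / d`. -/
def singularSum (a : ℤ) : ℝ := ∑ d ∈ a.natAbs.divisors, (1 : ℝ) / d

theorem singularSum_pos (ha0 : a ≠ 0) : 1 ≤ singularSum a := by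
  have h1 : 1 ∈ a.natAbs.divisors := Nat.one_mem_divisors.2 (Int.natAbs_ne_zero.2 ha0)
  refine le_trans ?_ (single_le_sum (fun d _ => by positivity) h1)
  simp

theorem sum_inv_sq_le (m : ℕ) : ∑ w ∈ Icc 1 m, (1 : ℝ) / (w : ℝ) ^ 2 ≤ 2 := by
  refine le_trans (le_of_eq ?_) ((sum_Ioo_inv_sq_le 0 (m + 1)).trans (by norm_num))
  rw [show Ioo 0 (m + 1) = Icc 1 m by ext; simp; omega]
  simp [one_div]

/-- The squarefree numbers up to `m`. -/
def sqfreeUpTo (m : ℕ) : Finset ℕ := (Icc 1 m).filter Squarefree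

theorem harmonic_le_sqfree (m : ℕ) :
    (∑ n ∈ Icc 1 m, (1 : ℝ) / n) ≤ 2 * ∑ u ∈ sqfreeUpTo m, (1 : ℝ) / u := by
  calc ∑ n ∈ Icc 1 m, (1 : ℝ) / n
      ≤ ∑ q ∈ Icc 1 m ×ˢ sqfreeUpTo m, (1 : ℝ) / ((q.1 : ℝ) ^ 2 * q.2) := by
        refine le_trans (le_of_eq ?_) (sum_le_sum_of_subset_of_nonneg
          (s := (Icc 1 m ×ˢ sqfreeUpTo m).filter fun q => q.1 ^ 2 * q.2 ≤ m) (filter_subset _ _)
          fun q _ _ => by positivity)
        refine (sum_bij (fun q _ => q.1 ^ 2 * q.2) ?_ ?_ ?_ ?_).symm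
        · intro q hq
          simp only [mem_filter, mem_product, mem_Icc, sqfreeUpTo] at hq
          refine mem_Icc.2 ⟨?_, hq.2⟩
          exact Nat.mul_pos (pow_pos hq.1.1.1 2) hq.1.2.1.1
        · intro q hq r hr h
          simp only [mem_filter, mem_product, mem_Icc, sqfreeUpTo] at hq hr
          have h1 : q.1 = r.1 ∧ q.2 = r.2 :=
            sq_mul_sqfree_inj hq.1.1.1 hr.1.1.1 hq.1.2.2 hr.1.2.2 h
          exact Prod.ext h1.1 h1.2
        · intro n hn
          rw [mem_Icc] at hn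
          obtain ⟨u, w, hu, hw, rfl, hsq⟩ := Nat.sq_mul_squarefree_of_pos hn.1
          refine ⟨(w, u), ?_, rfl⟩
          simp only [mem_filter, mem_product, mem_Icc, sqfreeUpTo]
          refine ⟨⟨⟨hw, ?_⟩, ⟨hu, ?_⟩, hsq⟩, hn.2⟩
          · nlinarith [Nat.le_mul_of_pos_right (w ^ 2) hu, Nat.le_self_pow two_ne_zero w]
          · nlinarith [Nat.le_mul_of_pos_left u (pow_pos hw 2)]
        · intro q _
          push_cast
          rfl
    _ ≤ _ := by
        rw [sum_product]
        simp_rw [one_div, mul_inv, ← mul_sum, ← sum_mul]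
        refine mul_le_mul_of_nonneg_right ?_ (sum_nonneg fun u _ => by positivity)
        simpa [one_div] using sum_inv_sq_le m
where
  sq_mul_sqfree_inj {w v u t : ℕ} (hw : 0 < w) (hv : 0 < v) (hu : Squarefree u)
      (ht : Squarefree t) (h : w ^ 2 * u = v ^ 2 * t) : w = v ∧ u = t := by
    have key : ∀ p : ℕ, w.factorization p = v.factorization p ∧
        u.factorization p = t.factorization p := by
      intro p
      have e := congrArg (fun n => n.factorization p) h
      simp only [Nat.factorization_mul (pow_ne_zero 2 hw.ne') hu.ne_zero,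
        Nat.factorization_mul (pow_ne_zero 2 hv.ne') ht.ne_zero, Nat.factorization_pow,
        Finsupp.coe_add, Pi.add_apply, Finsupp.coe_smul, Pi.smul_apply, smul_eq_mul] at e
      have := hu.natFactorization_le_one p
      have := ht.natFactorization_le_one p
      omega
    exact ⟨Nat.eq_of_factorization_eq hw.ne' hv.ne' fun p => (key p).1,
      Nat.eq_of_factorization_eq hu.ne_zero ht.ne_zero fun p => (key p).2⟩

theorem sqfree_le_prime_to (m : ℕ) (ha0 : a ≠ 0) :
    (∑ u ∈ sqfreeUpTo m, (1 : ℝ) / u) ≤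
      singularSum a * ∑ v ∈ (sqfreeUpTo m).filter (Nat.Coprime · a.natAbs), (1 : ℝ) / v := by
  rw [singularSum, sum_mul_sum, ← sum_product']
  refine le_trans (le_of_eq ?_) (sum_le_sum_of_subset_of_nonneg
    (s := (sqfreeUpTo m).image fun u => (Nat.gcd u a.natAbs, u / Nat.gcd u a.natAbs)) ?_
    fun q _ _ => by positivity)
  · rw [sum_image fun u hu w hw h => ?_]
    · refine sum_congr rfl fun u _ => ?_
      dsimp only
      rw [one_div_mul_one_div, ← Nat.cast_mul, Nat.mul_div_cancel' (Nat.gcd_dvd_left _ _)]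
    · have h1 := congrArg (fun q : ℕ × ℕ => q.1 * q.2) h
      simpa only [Nat.mul_div_cancel' (Nat.gcd_dvd_left _ _)] using h1
  · intro q hq
    obtain ⟨u, hu, rfl⟩ := mem_image.1 hq
    simp only [sqfreeUpTo, mem_filter, mem_Icc] at hu
    obtain ⟨g, hg⟩ : ∃ g, g = Nat.gcd u a.natAbs := ⟨_, rfl⟩
    obtain ⟨c, hc⟩ : g ∣ u := hg ▸ Nat.gcd_dvd_left _ _
    have hg0 : 0 < g := hg ▸ Nat.gcd_pos_of_pos_left _ hu.1.1
    have hdiv : u / g = c := by rw [hc, Nat.mul_div_cancel_left _ hg0]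
    simp only [mem_product, Nat.mem_divisors, mem_filter, sqfreeUpTo, mem_Icc, ← hg, hdiv]
    refine ⟨⟨hg ▸ Nat.gcd_dvd_right _ _, Int.natAbs_ne_zero.2 ha0⟩,
      ⟨⟨?_, ?_⟩, hu.2.squarefree_of_dvd ⟨g, by rw [hc, mul_comm]⟩⟩, ?_⟩
    · rcases Nat.eq_zero_or_pos c with h | h
      · simp [h] at hc; omega
      · exact h
    · calc c ≤ g * c := Nat.le_mul_of_pos_left c hg0
        _ ≤ m := hc ▸ hu.1.2
    · have hgc : Nat.Coprime g c := (Nat.squarefree_mul_iff.1 (hc ▸ hu.2)).1
      have h2 : Nat.gcd c a.natAbs ∣ g := by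
        rw [hg]
        exact Nat.dvd_gcd ((Nat.gcd_dvd_left _ _).trans ⟨g, by rw [hc, mul_comm]⟩)
          (Nat.gcd_dvd_right _ _)
      exact Nat.eq_one_of_dvd_coprimes hgc h2 (Nat.gcd_dvd_left _ _)

/-- The coprime pairs. -/
def coprimePairs (a : ℤ) (m : ℕ) : Finset (ℕ × ℕ) :=
  ((sqfreeUpTo m) ×ˢ ((sqfreeUpTo m).filter (Nat.Coprime · a.natAbs))).filter
    fun q => q.1.Coprime q.2

theorem mul_sums_le_coprime (m : ℕ) :
    (∑ u ∈ sqfreeUpTo m, (1 : ℝ) / u) *
      (∑ v ∈ (sqfreeUpTo m).filter (Nat.Coprime · a.natAbs), (1 : ℝ) / v) ≤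
      2 * ∑ q ∈ coprimePairs a m, (1 : ℝ) / (q.1 * q.2) := by
  rw [sum_mul_sum, ← sum_product']
  refine le_trans ?_ (mul_le_mul_of_nonneg_right (sum_inv_sq_le m)
    (sum_nonneg fun q _ => by positivity))
  rw [sum_mul_sum, ← sum_product']
  refine le_trans (le_of_eq ?_) (sum_le_sum_of_subset_of_nonneg
    (s := ((sqfreeUpTo m) ×ˢ ((sqfreeUpTo m).filter (Nat.Coprime · a.natAbs))).image
      fun q => (Nat.gcd q.1 q.2, q.1 / Nat.gcd q.1 q.2, q.2 / Nat.gcd q.1 q.2)) ?_
    fun q _ _ => by positivity)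
  · rw [sum_image fun u _ w _ h => ?_]
    · refine sum_congr rfl fun q hq => ?_
      dsimp only
      simp only [mem_product, sqfreeUpTo, mem_filter, mem_Icc] at hq
      have e1 := congrArg (Nat.cast (R := ℝ)) (Nat.div_mul_cancel (Nat.gcd_dvd_left q.1 q.2))
      have e2 := congrArg (Nat.cast (R := ℝ)) (Nat.div_mul_cancel (Nat.gcd_dvd_right q.1 q.2))
      push_cast at e1 e2
      rw [one_div_mul_one_div, one_div_mul_one_div]
      congr 1
      calc (q.1 : ℝ) * q.2 = ((q.1 / Nat.gcd q.1 q.2 : ℕ) * (Nat.gcd q.1 q.2 : ℕ) : ℝ) *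
            ((q.2 / Nat.gcd q.1 q.2 : ℕ) * (Nat.gcd q.1 q.2 : ℕ) : ℝ) := by rw [e1, e2]
        _ = _ := by ring
    · have h1 := congrArg (fun q : ℕ × ℕ × ℕ => (q.1 * q.2.1, q.1 * q.2.2)) h
      simpa only [Nat.mul_div_cancel' (Nat.gcd_dvd_left _ _),
        Nat.mul_div_cancel' (Nat.gcd_dvd_right _ _), Prod.mk.eta] using h1
  · intro t ht
    obtain ⟨q, hq, rfl⟩ := mem_image.1 ht
    simp only [mem_product, sqfreeUpTo, mem_filter, mem_Icc] at hq
    obtain ⟨⟨⟨hu, hum⟩, hus⟩, ⟨⟨hv, hvm⟩, hvs⟩, hva⟩ := hq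
    have hg := Nat.gcd_pos_of_pos_left q.2 (show 0 < q.1 by omega)
    have d1 := Nat.gcd_dvd_left q.1 q.2
    have d2 := Nat.gcd_dvd_right q.1 q.2
    simp only [mem_product, coprimePairs, sqfreeUpTo, mem_filter, mem_Icc]
    refine ⟨⟨hg, (Nat.le_of_dvd (by omega) d1).trans hum⟩, ⟨⟨⟨?_, ?_⟩,
      hus.squarefree_of_dvd (Nat.div_dvd_of_dvd d1)⟩, ⟨⟨?_, ?_⟩,
      hvs.squarefree_of_dvd (Nat.div_dvd_of_dvd d2)⟩,
      hva.coprime_dvd_left (Nat.div_dvd_of_dvd d2)⟩, Nat.coprime_div_gcd_div_gcd hg⟩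
    · exact Nat.div_pos (Nat.le_of_dvd (by omega) d1) hg
    · exact (Nat.div_le_self _ _).trans hum
    · exact Nat.div_pos (Nat.le_of_dvd (by omega) d2) hg
    · exact (Nat.div_le_self _ _).trans hvm

theorem coprime_le_selbergDenom (X m : ℕ) (ha : (2 : ℤ) ∣ a) :
    ∑ q ∈ coprimePairs a m, (1 : ℝ) / (q.1 * q.2) ≤
      selbergDenom (pairSieve a X (m * m) ha) (m * m) := by
  have hmem : ∀ q ∈ coprimePairs a m, q.1 * q.2 ∈
      (Nat.divisors (pairSieve a X (m * m) ha).prodPrimes).filter (· ≤ m * m) := by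
    intro q hq
    simp only [coprimePairs, mem_product, sqfreeUpTo, mem_filter, mem_Icc] at hq
    have hle : q.1 * q.2 ≤ m * m := Nat.mul_le_mul hq.1.1.1.2 hq.1.2.1.1.2
    refine mem_filter.2 ⟨Nat.mem_divisors.2 ⟨?_, primorial_ne_zero _⟩, hle⟩
    exact ((Nat.squarefree_mul_iff.2 ⟨hq.2, hq.1.1.2, hq.1.2.1.2⟩).dvd_primorial).trans
      (primorial_dvd_primorial hle)
  rw [selbergDenom, ← sum_fiberwise_of_maps_to hmem]
  refine sum_le_sum fun l hl => ?_
  have hlP := Nat.dvd_of_mem_divisors (mem_filter.1 hl).1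
  have hls := squarefree_of_dvd_prodPrimes hlP
  have hl0 : 0 < l := Nat.pos_of_ne_zero hls.ne_zero
  obtain ⟨T, hT⟩ : ∃ T, T = l.primeFactors.filter fun p : ℕ => ¬ (p : ℤ) ∣ a := ⟨_, rfl⟩
  calc ∑ q ∈ (coprimePairs a m).filter (fun q => q.1 * q.2 = l), (1 : ℝ) / (q.1 * q.2)
      = (#((coprimePairs a m).filter fun q => q.1 * q.2 = l) : ℝ) / l := by
        rw [sum_congr rfl fun q hq => by
          rw [← Nat.cast_mul, (mem_filter.1 hq).2], sum_const, nsmul_eq_mul, mul_one_div]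
    _ ≤ (2 : ℝ) ^ #T / l := by
        gcongr
        have : #((coprimePairs a m).filter fun q => q.1 * q.2 = l) ≤ #T.powerset := by
          refine card_le_card_of_injOn (fun q => q.2.primeFactors) ?_ ?_
          · intro q hq
            simp only [mem_coe, coprimePairs, mem_product, sqfreeUpTo, mem_filter, mem_Icc] at hq
            refine mem_coe.2 (mem_powerset.2 fun p hp => ?_)
            rw [hT, mem_filter]
            refine ⟨Nat.primeFactors_mono ⟨q.1, by rw [← hq.2, mul_comm]⟩ hls.ne_zero hp, ?_⟩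
            intro hpa
            exact (Nat.prime_of_mem_primeFactors hp).ne_one
              (Nat.eq_one_of_dvd_coprimes hq.1.1.2.2 (Nat.dvd_of_mem_primeFactors hp)
                (Int.natCast_dvd.1 hpa))
          · intro q hq r hr h
            simp only [mem_coe, coprimePairs, mem_product, sqfreeUpTo, mem_filter,
              mem_Icc] at hq hr
            have e : q.2 = r.2 := by
              rw [← Nat.prod_primeFactors_of_squarefree hq.1.1.2.1.2,
                ← Nat.prod_primeFactors_of_squarefree hr.1.1.2.1.2]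
              exact congrArg (fun s : Finset ℕ => ∏ p ∈ s, p) h
            refine Prod.ext ?_ e
            refine Nat.eq_of_mul_eq_mul_right (show 0 < q.2 by omega) ?_
            rw [hq.2]
            conv_rhs => rw [e, hr.2]
        rw [card_powerset] at this
        exact_mod_cast this
    _ = pairNu a l := by
        rw [pairNu_apply, card_pairRoots_squarefree a hls]
        congr 1
        rw [hT, ← prod_const, prod_filter]
        push_cast
        refine prod_congr rfl fun p _ => ?_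
        unfold rho
        split_ifs <;> simp
    _ ≤ _ := by
        rw [selbergTerms_apply]
        refine le_mul_of_one_le_right (nu_pos_of_dvd_prodPrimes hlP).le
          (one_le_prod fun p hp => ?_)
        have hpp := Nat.prime_of_mem_primeFactors hp
        have hpP := (Nat.dvd_of_mem_primeFactors hp).trans hlP
        rw [one_le_inv₀ (sub_pos.2 ((pairSieve a X (m * m) ha).nu_lt_one_of_prime p hpp hpP))]
        linarith [(pairSieve a X (m * m) ha).nu_pos_of_prime p hpp hpP]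

/-- `S ≥ (log (m + 1)) ^ 2 / (8 ∑_{d ∣ a} 1 / d)`. -/
theorem log_sq_le_selbergDenom (X m : ℕ) (ha : (2 : ℤ) ∣ a) (ha0 : a ≠ 0) :
    Real.log (m + 1) ^ 2 ≤
      8 * singularSum a * selbergDenom (pairSieve a X (m * m) ha) (m * m) := by
  obtain ⟨H, hH⟩ : ∃ H : ℝ, H = ∑ n ∈ Icc 1 m, (1 : ℝ) / n := ⟨_, rfl⟩
  have h0 : Real.log (m + 1) ≤ H := by
    have := log_add_one_le_harmonic m
    rw [hH]
    simpa [harmonic_eq_sum_Icc, one_div] using this
  have hl : 0 ≤ Real.log (m + 1) := Real.log_nonneg (by simp)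
  obtain ⟨U, hU⟩ : ∃ U : ℝ, U = ∑ u ∈ sqfreeUpTo m, (1 : ℝ) / u := ⟨_, rfl⟩
  obtain ⟨V, hV⟩ : ∃ V : ℝ,
      V = ∑ v ∈ (sqfreeUpTo m).filter (Nat.Coprime · a.natAbs), (1 : ℝ) / v := ⟨_, rfl⟩
  have h1 : H ≤ 2 * U := by rw [hH, hU]; exact harmonic_le_sqfree m
  have h2 : U ≤ singularSum a * V := by rw [hU, hV]; exact sqfree_le_prime_to m ha0
  have h3 := (mul_sums_le_coprime (a := a) m).trans
    (mul_le_mul_of_nonneg_left (coprime_le_selbergDenom X m ha) two_pos.le)
  rw [← hU, ← hV] at h3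
  have hA := singularSum_pos ha0
  have hU0 : 0 ≤ U := by linarith
  calc Real.log (m + 1) ^ 2 ≤ (2 * U) * (2 * U) := by
        rw [sq]; exact mul_le_mul (h0.trans h1) (h0.trans h1) hl (by positivity)
    _ ≤ (2 * U) * (2 * (singularSum a * V)) :=
        mul_le_mul_of_nonneg_left (by linarith) (by positivity)
    _ = 4 * singularSum a * (U * V) := by ring
    _ ≤ 4 * singularSum a * (2 * selbergDenom (pairSieve a X (m * m) ha) (m * m)) :=
        mul_le_mul_of_nonneg_left h3 (by positivity)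
    _ = _ := by ring

/-- The pairs counted. -/
def primePairs (a : ℤ) (X : ℕ) : Finset ℕ :=
  (Ioc 0 X).filter fun n : ℕ => n.Prime ∧ ((n : ℤ) + a).natAbs.Prime

theorem card_primePairs_le_sieve (X z : ℕ) (ha : (2 : ℤ) ∣ a) :
    (#(primePairs a X) : ℝ) ≤ (pairSieve a X z ha).siftedSum + 3 * (z + 1) := by
  obtain ⟨G, hG⟩ : ∃ G, G = (primePairs a X).filter fun n =>
      z < n ∧ z < ((n : ℤ) + a).natAbs := ⟨_, rfl⟩
  have hbad : #((primePairs a X).filter fun n => ¬(z < n ∧ z < ((n : ℤ) + a).natAbs)) ≤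
      3 * (z + 1) := by
    refine (card_le_card (t := range (z + 1) ∪
      ((range (z + 1)).image fun k : ℕ => ((k : ℤ) - a).toNat) ∪
      ((range (z + 1)).image fun k : ℕ => (-(k : ℤ) - a).toNat)) fun n hn => ?_).trans ?_
    · simp only [mem_filter] at hn
      simp only [mem_union, mem_range, mem_image]
      by_cases h : z < n
      · have h' : ((n : ℤ) + a).natAbs ≤ z := by
          by_contra hc
          exact hn.2 ⟨h, not_le.1 hc⟩
        rcases le_total 0 ((n : ℤ) + a) with hs | hs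
        · exact Or.inl (Or.inr ⟨((n : ℤ) + a).natAbs, by omega, by omega⟩)
        · exact Or.inr ⟨((n : ℤ) + a).natAbs, by omega, by omega⟩
      · exact Or.inl (Or.inl (by omega))
    · refine (card_union_le _ _).trans ((Nat.add_le_add (card_union_le _ _) le_rfl).trans ?_)
      have h1 := card_image_le (s := range (z + 1)) (f := fun k : ℕ => ((k : ℤ) - a).toNat)
      have h2 := card_image_le (s := range (z + 1)) (f := fun k : ℕ => (-(k : ℤ) - a).toNat)
      rw [card_range] at h1 h2 ⊢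
      omega
  have hsplit : (#(primePairs a X) : ℝ) = #G +
      #((primePairs a X).filter fun n => ¬(z < n ∧ z < ((n : ℤ) + a).natAbs)) := by
    rw [hG, ← Nat.cast_add, card_filter_add_card_filter_not]
  rw [hsplit]
  refine add_le_add ?_ (by exact_mod_cast hbad)
  rw [card_eq_sum_card_fiberwise (f := fun n : ℕ => ((n : ℤ) * (n + a)).natAbs)
    (t := (pairSieve a X z ha).support) fun n hn => ?_]
  · push_cast
    refine sum_le_sum fun k _ => ?_
    split_ifs with hk
    · refine Nat.cast_le.2 (card_le_card fun n hn => ?_)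
      simp only [hG, primePairs, mem_filter] at hn ⊢
      exact ⟨hn.1.1.1, hn.2⟩
    · rw [Nat.cast_nonpos, card_eq_zero, filter_eq_empty_iff]
      intro n hn hnk
      refine hk ?_
      simp only [hG, primePairs, mem_filter] at hn
      obtain ⟨⟨-, hp, hq⟩, hzn, hzq⟩ := hn
      rw [← hnk, Int.natAbs_mul, Int.natAbs_natCast]
      refine Nat.Coprime.mul_right ?_ ?_ <;>
      · refine Nat.Coprime.symm (((Nat.Prime.coprime_iff_not_dvd ?_).2 fun hd => ?_))
        · assumption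
        · rw [show (pairSieve a X z ha).prodPrimes = primorial z from rfl] at hd
          rw [Nat.Prime.dvd_primorial_iff (by assumption)] at hd
          omega
  · simp only [hG, primePairs, mem_coe, mem_filter] at hn
    exact mem_coe.2 (mem_image_of_mem _ hn.1.1)

/-- **The sieve bound for pairs of primes.** -/
theorem card_primePairs_le (ha : (2 : ℤ) ∣ a) (ha0 : a ≠ 0) {X : ℕ} (hX : 2 ≤ X) :
    (#(primePairs a X) : ℝ) ≤ 5000 * singularSum a * X / Real.log X ^ 2 := by
  have hA := singularSum_pos ha0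
  have hX0 : (0 : ℝ) < X := by positivity
  have hX1 : (1 : ℝ) ≤ X := by norm_cast; omega
  have hL : 0 < Real.log X := Real.log_pos (by norm_cast)
  obtain ⟨r, hr⟩ : ∃ r : ℝ, r = (X : ℝ) ^ (1 / 24 : ℝ) := ⟨_, rfl⟩
  have hr1 : 1 ≤ r := hr ▸ Real.one_le_rpow hX1 (by norm_num)
  obtain ⟨m, hm⟩ : ∃ m : ℕ, m = ⌊r⌋₊ := ⟨_, rfl⟩
  have hm1 : 1 ≤ m := hm ▸ Nat.one_le_iff_ne_zero.2 (Nat.floor_pos.2 hr1).ne'
  have hmr : (m : ℝ) ≤ r := hm ▸ Nat.floor_le (by linarith)
  have hlog : Real.log X / 24 ≤ Real.log (m + 1) := by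
    rw [show Real.log X / 24 = Real.log r by
      rw [hr, Real.log_rpow hX0]; ring]
    exact Real.log_le_log (by linarith) (hm ▸ (Nat.lt_floor_add_one r).le)
  have hz : 1 ≤ m * m := Nat.one_le_iff_ne_zero.2 (by positivity)
  have hb := card_primePairs_le_sieve X (m * m) ha
  have hs := siftedSum_le (pairSieve a X (m * m) ha) (m * m) hz
    (fun d hd => pairSieve_rem X _ ha hd) (fun d hd => pairSieve_nu X _ ha hd)
  have hS := log_sq_le_selbergDenom X m ha ha0
  have hS0 := selbergDenom_pos (pairSieve a X (m * m) ha) (m * m) hz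
  rw [show (pairSieve a X (m * m) ha).totalMass = (X : ℝ) from rfl] at hs
  have h1 : (X : ℝ) / selbergDenom (pairSieve a X (m * m) ha) (m * m) ≤
      4608 * singularSum a * X / Real.log X ^ 2 := by
    rw [div_le_div_iff₀ hS0 (by positivity)]
    have hsq := pow_le_pow_left₀ (by positivity) hlog 2
    calc (X : ℝ) * Real.log X ^ 2 = 576 * X * (Real.log X / 24) ^ 2 := by ring
      _ ≤ 576 * X *
          (8 * singularSum a * selbergDenom (pairSieve a X (m * m) ha) (m * m)) :=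
          mul_le_mul_of_nonneg_left (hsq.trans hS) (by positivity)
      _ = _ := by ring
  have h2 : (((m * m : ℕ) : ℝ)) ^ 6 + 3 * (((m * m : ℕ) : ℝ) + 1) ≤
      7 * (X : ℝ) ^ (1 / 2 : ℝ) := by
    push_cast
    have e : r ^ 12 = (X : ℝ) ^ (1 / 2 : ℝ) := by
      rw [hr, ← Real.rpow_natCast, ← Real.rpow_mul hX0.le]; norm_num
    have hm12 : ((m : ℝ) * m) ^ 6 ≤ r ^ 12 := by
      rw [← sq, ← pow_mul]
      exact pow_le_pow_left₀ (Nat.cast_nonneg _) hmr 12
    have hm2 : (m : ℝ) * m ≤ ((m : ℝ) * m) ^ 6 :=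
      le_self_pow₀ (one_le_mul_of_one_le_of_one_le (by norm_cast) (by norm_cast)) (by norm_num)
    have hr12 : 1 ≤ r ^ 12 := one_le_pow₀ hr1
    linarith
  have h3 : 7 * (X : ℝ) ^ (1 / 2 : ℝ) ≤ 112 * singularSum a * X / Real.log X ^ 2 := by
    rw [le_div_iff₀ (by positivity)]
    have hl4 := Real.log_le_rpow_div hX0.le (ε := 1 / 4) (by norm_num)
    have hsq := pow_le_pow_left₀ hL.le hl4 2
    calc 7 * (X : ℝ) ^ (1 / 2 : ℝ) * Real.log X ^ 2
        ≤ 7 * (X : ℝ) ^ (1 / 2 : ℝ) * ((X : ℝ) ^ (1 / 4 : ℝ) / (1 / 4)) ^ 2 :=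
          mul_le_mul_of_nonneg_left hsq (by positivity)
      _ = 112 * ((X : ℝ) ^ (1 / 2 : ℝ) * ((X : ℝ) ^ (1 / 4 : ℝ)) ^ 2) := by ring
      _ = 112 * (1 * X) := by
          rw [← Real.rpow_natCast, ← Real.rpow_mul hX0.le, ← Real.rpow_add hX0]
          norm_num
      _ ≤ _ := by rw [mul_assoc]; gcongr
  calc (#(primePairs a X) : ℝ) ≤ _ := hb
    _ ≤ 4608 * singularSum a * X / Real.log X ^ 2 + 112 * singularSum a * X / Real.log X ^ 2 := by
        linarith
    _ ≤ _ := by
        rw [← add_div]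
        gcongr
        nlinarith

end FA.GoldbachSchnirelmann
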