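import Mathlib.Combinatorics.Schnirelmann

/-!
# Schnirelmann's inequality

`σ (A + B) ≥ σ A + σ B - σ A σ B` when both sets contain `0`, and so a set with positive density
is a basis of finite order.
-/

set_option autoImplicit false

noncomputable section

namespace FA.GoldbachSchnirelmann

open Finset
open scoped Pointwise

open Classical in
/-- The elements of `A` in `(0, n]`. -/
def countIn (A : Set ℕ) (n : ℕ) : ℝ := #((Ioc 0 n).filter (· ∈ A))

open Classical in
/-- Schnirelmann's density. -/
def density (A : Set ℕ) : ℝ := schnirelmannDensity A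

theorem density_mul_le (A : Set ℕ) (n : ℕ) : density A * n ≤ countIn A n := by
  classical
  exact schnirelmannDensity_mul_le_card_filter

theorem countIn_le (A : Set ℕ) (n : ℕ) : countIn A n ≤ n := by
  classical
  exact Nat.cast_le.2 ((card_filter_le _ _).trans (by simp))

theorem countIn_succ_of_mem {A : Set ℕ} {n : ℕ} (h : n + 1 ∈ A) :
    countIn A (n + 1) = countIn A n + 1 := by
  classical
  have he : (Ioc 0 (n + 1)).filter (· ∈ A) = insert (n + 1) ((Ioc 0 n).filter (· ∈ A)) := by
    ext x
    simp only [mem_filter, mem_Ioc, mem_insert]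
    constructor
    · rintro ⟨⟨h1, h2⟩, h3⟩
      by_cases hx : x = n + 1
      · exact Or.inl hx
      · exact Or.inr ⟨⟨h1, by omega⟩, h3⟩
    · rintro (rfl | ⟨⟨h1, h2⟩, h3⟩)
      · exact ⟨⟨by omega, le_rfl⟩, h⟩
      · exact ⟨⟨h1, by omega⟩, h3⟩
  rw [countIn, countIn, he, card_insert_of_notMem (by simp), Nat.cast_add_one]

theorem countIn_add {A B : Set ℕ} (hA : 0 ∈ A) (hB : 0 ∈ B) (n : ℕ) :
    countIn A n + density B * (n - countIn A n) ≤ countIn (A + B) n := by
  classical
  induction n using Nat.strong_induction_on with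
  | _ n ih =>
    obtain ⟨k, hk⟩ : ∃ k, k = Nat.findGreatest (· ∈ A) n := ⟨_, rfl⟩
    have hkn : k ≤ n := hk ▸ Nat.findGreatest_le n
    have hkA : k ∈ A := hk ▸ Nat.findGreatest_spec (Nat.zero_le n) hA
    have hAn : countIn A n = countIn A k := by
      unfold countIn
      congr 2
      ext x
      simp only [mem_filter, mem_Ioc]
      exact ⟨fun h => ⟨⟨h.1.1, hk ▸ Nat.le_findGreatest h.1.2 h.2⟩, h.2⟩,
        fun h => ⟨⟨h.1.1, h.1.2.trans hkn⟩, h.2⟩⟩
    have hk_bd : countIn A k + density B * (k - countIn A k) ≤ countIn (A + B) k := by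
      rcases Nat.eq_zero_or_pos k with h0 | h0
      · simp [h0, countIn]
      · obtain ⟨j, hj⟩ : ∃ j, k = j + 1 := ⟨k - 1, by omega⟩
        rw [hj] at hkA ⊢
        have hmem : j + 1 ∈ A + B := ⟨j + 1, hkA, 0, hB, rfl⟩
        rw [countIn_succ_of_mem hkA, countIn_succ_of_mem hmem]
        push_cast
        linarith [ih j (by omega)]
    rcases eq_or_lt_of_le hkn with h | h
    · rwa [← h]
    have hsplit : countIn (A + B) k + countIn B (n - k) ≤ countIn (A + B) n := by
      unfold countIn
      rw [← Nat.cast_add, Nat.cast_le,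
        ← card_map (addLeftEmbedding k) (s := (Ioc 0 (n - k)).filter (· ∈ B)),
        ← card_union_of_disjoint]
      · refine card_le_card fun x hx => ?_
        simp only [mem_union, mem_map, mem_filter, mem_Ioc, addLeftEmbedding_apply] at hx
        simp only [mem_filter, mem_Ioc]
        rcases hx with ⟨⟨h1, h2⟩, h3⟩ | ⟨b, ⟨⟨h1, h2⟩, h3⟩, rfl⟩
        · exact ⟨⟨h1, h2.trans hkn⟩, h3⟩
        · exact ⟨⟨by omega, by omega⟩, k, hkA, b, h3, rfl⟩
      · rw [disjoint_left]
        intro x hx hx'
        simp only [mem_map, mem_filter, mem_Ioc, addLeftEmbedding_apply] at hx hx'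
        obtain ⟨b, ⟨⟨h1, -⟩, -⟩, rfl⟩ := hx'
        omega
    have hB' := density_mul_le B (n - k)
    rw [Nat.cast_sub hkn] at hB'
    rw [hAn]
    linarith

/-- **Schnirelmann's inequality.** -/
theorem one_sub_density_add {A B : Set ℕ} (hA : 0 ∈ A) (hB : 0 ∈ B) :
    1 - density (A + B) ≤ (1 - density A) * (1 - density B) := by
  classical
  suffices h : 1 - (1 - density A) * (1 - density B) ≤ density (A + B) by linarith
  show _ ≤ schnirelmannDensity (A + B)
  rw [le_schnirelmannDensity_iff]
  intro n hn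
  rw [le_div_iff₀ (by exact_mod_cast hn)]
  have h1 := countIn_add hA hB n
  have h2 := density_mul_le A n
  have h3 : 0 ≤ 1 - density B := sub_nonneg.2 schnirelmannDensity_le_one
  have h4 := mul_le_mul_of_nonneg_right h2 h3
  show _ ≤ countIn (A + B) n
  linarith

theorem density_le_of_subset {A B : Set ℕ} (h : A ⊆ B) : density A ≤ density B := by
  classical
  exact schnirelmannDensity_le_of_subset h

theorem density_nonneg (A : Set ℕ) : 0 ≤ density A := by
  classical
  exact schnirelmannDensity_nonneg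

theorem density_le_one (A : Set ℕ) : density A ≤ 1 := by
  classical
  exact schnirelmannDensity_le_one

/-- The sums of at most `k` elements of `A`. -/
def sumsOf (A : Set ℕ) (k : ℕ) : Set ℕ :=
  {n | ∃ l : List ℕ, l.length ≤ k ∧ (∀ x ∈ l, x ∈ A) ∧ l.sum = n}

theorem zero_mem_sumsOf (A : Set ℕ) (k : ℕ) : 0 ∈ sumsOf A k := ⟨[], by simp⟩

theorem sumsOf_add_subset (A : Set ℕ) (k j : ℕ) : sumsOf A k + sumsOf A j ⊆ sumsOf A (k + j) := by
  rintro _ ⟨_, ⟨l, hl, hlA, rfl⟩, _, ⟨l', hl', hlA', rfl⟩, rfl⟩
  refine ⟨l ++ l', by rw [List.length_append]; omega, fun x hx => ?_, List.sum_append⟩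
  rcases List.mem_append.1 hx with h | h
  · exact hlA x h
  · exact hlA' x h

/-- **A set of positive density is a basis of finite order.** -/
theorem exists_sumsOf_eq_univ (A : Set ℕ) (h : 0 < density A) :
    ∃ k, sumsOf A k = Set.univ := by
  classical
  have hsub : density A ≤ density (sumsOf A 1) :=
    density_le_of_subset fun x hx => ⟨[x], by simp, by simpa using hx, by simp⟩
  have step : ∀ i : ℕ, ∃ k, 1 - density (sumsOf A k) ≤ (1 - density A) ^ 2 ^ i := by
    intro i
    induction i with
    | zero => exact ⟨1, by rw [pow_zero, pow_one]; linarith⟩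
    | succ i ih =>
      obtain ⟨k, hk⟩ := ih
      refine ⟨k + k, le_trans (sub_le_sub_left (density_le_of_subset (sumsOf_add_subset A k k)) 1)
        ((one_sub_density_add (zero_mem_sumsOf A k) (zero_mem_sumsOf A k)).trans ?_)⟩
      have h0 := sub_nonneg.2 (density_le_one (sumsOf A k))
      rw [pow_succ 2 i, pow_mul, sq]
      exact mul_le_mul hk hk h0 (h0.trans hk)
  obtain ⟨i, hi⟩ := exists_pow_lt_of_lt_one (show (0 : ℝ) < 1 / 2 by norm_num)
    (show 1 - density A < 1 by linarith)
  obtain ⟨k, hk⟩ := step i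
  have hhalf : 1 / 2 ≤ density (sumsOf A k) := by
    have := (pow_le_pow_of_le_one (sub_nonneg.2 (density_le_one A)) (by linarith)
      (Nat.lt_two_pow_self (n := i)).le).trans hi.le
    linarith
  refine ⟨k + k, Set.univ_subset_iff.1 (le_trans (le_of_eq ?_) (sumsOf_add_subset A k k))⟩
  exact (add_eq_univ_of_one_le_schirelmannDensity_add_schnirelmannDensity
    (zero_mem_sumsOf A k) (zero_mem_sumsOf A k) (by
      show 1 ≤ density (sumsOf A k) + density (sumsOf A k)
      linarith)).symm

end FA.GoldbachSchnirelmann
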