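import Fermat.Agent.GoldbachSchnirelmann.Pairs
import Fermat.Agent.GoldbachSchnirelmann.Density
import Fermat.Agent.Root.SummaryPrimeNumberTheorem
import Mathlib.Algebra.Order.Chebyshev

/-!
# The theorems of Schnirelmann and Brun

The sums of two primes have positive lower density, by the sieve bound, the mean square of
`∑_{d ∣ n} 1 / d` and Cauchy–Schwarz; hence the primes are a basis of finite order.
The twin primes have a convergent sum of reciprocals.
-/

set_option autoImplicit false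

noncomputable section

namespace FA.GoldbachSchnirelmann

open Finset Filter Real
open scoped Topology

/-- The representations of `N` as a sum of two primes. -/
def goldbachReps (N : ℕ) : Finset ℕ :=
  (Ioc 0 N).filter fun p => p.Prime ∧ (N - p).Prime

/-- `∑_{d ∣ N} 1 / d`. -/
def divSum (N : ℕ) : ℝ := ∑ d ∈ N.divisors, (1 : ℝ) / d

theorem one_le_divSum {N : ℕ} (hN : N ≠ 0) : 1 ≤ divSum N := by
  have := singularSum_pos (a := (N : ℤ)) (by exact_mod_cast hN)
  simpa [singularSum, divSum] using this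

theorem card_goldbachReps_le {N : ℕ} (hN : 2 ≤ N) :
    (#(goldbachReps N) : ℝ) ≤ 5000 * divSum N * N / log N ^ 2 := by
  have hN0 : N ≠ 0 := by omega
  rcases Nat.even_or_odd N with he | ho
  · have h := card_primePairs_le (a := -(N : ℤ))
      (by rw [dvd_neg]; exact_mod_cast he.two_dvd) (by simp [hN0]) hN
    have hs : singularSum (-(N : ℤ)) = divSum N := by simp [singularSum, divSum]
    rw [hs] at h
    refine le_trans (Nat.cast_le.2 (card_le_card fun p hp => ?_)) h
    simp only [goldbachReps, primePairs, mem_filter, mem_Ioc] at hp ⊢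
    refine ⟨hp.1, hp.2.1, ?_⟩
    rw [show ((p : ℤ) + -(N : ℤ)).natAbs = N - p by omega]
    exact hp.2.2
  · have h2 : (#(goldbachReps N) : ℝ) ≤ 2 := by
      have : goldbachReps N ⊆ {2, N - 2} := by
        intro p hp
        simp only [goldbachReps, mem_filter, mem_Ioc] at hp
        simp only [mem_insert, mem_singleton]
        rcases hp.2.1.eq_two_or_odd' with h | h
        · exact Or.inl h
        · have he : Even (N - p) := Nat.Odd.sub_odd ho h
          have := (Nat.Prime.even_iff hp.2.2).1 he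
          omega
      exact_mod_cast (card_le_card this).trans card_le_two
    refine h2.trans ?_
    have hL : 0 < log N := log_pos (by exact_mod_cast hN)
    rw [le_div_iff₀ (by positivity)]
    have hl := log_le_rpow_div (Nat.cast_nonneg N) (ε := 1 / 2) (by norm_num)
    have hsq := pow_le_pow_left₀ hL.le hl 2
    rw [div_pow, ← Real.rpow_natCast, ← Real.rpow_natCast, ← Real.rpow_mul (Nat.cast_nonneg N)]
      at hsq
    norm_num at hsq
    have h1 := one_le_divSum hN0
    have hNr : (0 : ℝ) ≤ N := Nat.cast_nonneg N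
    nlinarith

/-- The series bounding the mean square of `divSum`. -/
def meanConst : ℝ := (∑' d : ℕ, (1 : ℝ) / (d : ℝ) ^ (3 / 2 : ℝ)) ^ 2

theorem sum_divSum_sq_le (x : ℕ) : ∑ N ∈ Icc 1 x, divSum N ^ 2 ≤ meanConst * x := by
  have hexp : ∀ N ∈ Icc 1 x, divSum N ^ 2 = ∑ d ∈ Icc 1 x, ∑ e ∈ Icc 1 x,
      if Nat.lcm d e ∣ N then (1 : ℝ) / (d * e) else 0 := by
    intro N hN
    rw [mem_Icc] at hN
    have hset : N.divisors = (Icc 1 x).filter (· ∣ N) := by
      ext d
      simp only [Nat.mem_divisors, mem_filter, mem_Icc]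
      exact ⟨fun h => ⟨⟨Nat.pos_of_dvd_of_pos h.1 (by omega),
        (Nat.le_of_dvd (by omega) h.1).trans hN.2⟩, h.1⟩, fun h => ⟨h.2, by omega⟩⟩
    rw [divSum, hset, sq, sum_mul_sum, sum_filter]
    refine sum_congr rfl fun d _ => ?_
    split_ifs with hd
    · rw [sum_filter]
      refine sum_congr rfl fun e _ => ?_
      simp [Nat.lcm_dvd_iff, hd, mul_comm]
    · exact (sum_eq_zero fun e _ => by simp [Nat.lcm_dvd_iff, hd]).symm
  rw [sum_congr rfl hexp, sum_comm, meanConst, sq]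
  have hsum : Summable fun d : ℕ => (1 : ℝ) / (d : ℝ) ^ (3 / 2 : ℝ) :=
    Real.summable_one_div_nat_rpow.2 (by norm_num)
  calc ∑ d ∈ Icc 1 x, ∑ N ∈ Icc 1 x, ∑ e ∈ Icc 1 x,
        (if Nat.lcm d e ∣ N then (1 : ℝ) / (d * e) else 0)
      ≤ ∑ d ∈ Icc 1 x, ∑ e ∈ Icc 1 x,
          (1 / (d : ℝ) ^ (3 / 2 : ℝ)) * (1 / (e : ℝ) ^ (3 / 2 : ℝ)) * x := by
        refine sum_le_sum fun d hd => ?_
        rw [sum_comm]
        refine sum_le_sum fun e he => ?_
        rw [← sum_filter, sum_const, nsmul_eq_mul]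
        have hc : #((Icc 1 x).filter fun N => Nat.lcm d e ∣ N) = x / Nat.lcm d e := by
          rw [← Nat.Ioc_filter_dvd_card_eq_div]
          rfl
        rw [mem_Icc] at hd he
        obtain ⟨l, hl⟩ : ∃ l, l = Nat.lcm d e := ⟨_, rfl⟩
        obtain ⟨g, hg⟩ : ∃ g, g = Nat.gcd d e := ⟨_, rfl⟩
        rw [hc, ← hl]
        have hd0 : (0 : ℝ) < d := by exact_mod_cast hd.1
        have he0 : (0 : ℝ) < e := by exact_mod_cast he.1
        have hgl : (g : ℝ) * l = d * e := by rw [hg, hl]; exact_mod_cast Nat.gcd_mul_lcm d e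
        have hgd : (g : ℝ) ≤ d :=
          Nat.cast_le.2 (hg ▸ Nat.le_of_dvd hd.1 (Nat.gcd_dvd_left d e))
        have hge : (g : ℝ) ≤ e :=
          Nat.cast_le.2 (hg ▸ Nat.le_of_dvd he.1 (Nat.gcd_dvd_right d e))
        have hg0 : (0 : ℝ) < g := by
          exact_mod_cast hg ▸ Nat.gcd_pos_of_pos_left e hd.1
        have hgs : (g : ℝ) ≤ ((d : ℝ) * e) ^ (1 / 2 : ℝ) := by
          rw [← Real.sqrt_eq_rpow]
          refine Real.le_sqrt_of_sq_le ?_
          rw [sq]
          exact mul_le_mul hgd hge hg0.le hd0.le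
        calc ((x / l : ℕ) : ℝ) * (1 / (d * e)) ≤ (x : ℝ) / l * (1 / (d * e)) := by
              gcongr
              exact Nat.cast_div_le
          _ = (x : ℝ) * g / (d * e) ^ 2 := by
              rw [show (l : ℝ) = d * e / g by rw [eq_div_iff hg0.ne', ← hgl]; ring]
              field_simp
          _ ≤ (x : ℝ) * ((d : ℝ) * e) ^ (1 / 2 : ℝ) / (d * e) ^ 2 := by gcongr
          _ = _ := by
              rw [one_div_mul_one_div, ← Real.mul_rpow hd0.le he0.le,
                ← Real.rpow_natCast _ 2, mul_div_assoc,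
                ← Real.rpow_sub (mul_pos hd0 he0),
                show 1 / ((d : ℝ) * e) ^ (3 / 2 : ℝ) = ((d : ℝ) * e) ^ (-(3 / 2) : ℝ) by
                  rw [Real.rpow_neg (by positivity), one_div]]
              norm_num
              ring
    _ ≤ _ := by
        simp_rw [← sum_mul, ← mul_sum]
        rw [← sum_mul]
        refine mul_le_mul_of_nonneg_right ?_ (Nat.cast_nonneg x)
        have h := hsum.sum_le_tsum (Icc 1 x) fun d _ => by positivity
        exact mul_le_mul h h (sum_nonneg fun d _ => by positivity)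
          (tsum_nonneg fun d => by positivity)

/-- `N / log ^ 2 N ≤ 64 x / log ^ 2 x` for `2 ≤ N ≤ x`. -/
theorem div_log_sq_le {N x : ℕ} (hN : 2 ≤ N) (hNx : N ≤ x) :
    (N : ℝ) / log N ^ 2 ≤ 64 * (x / log x ^ 2) := by
  have hN1 : (1 : ℝ) < N := by exact_mod_cast hN
  have hx1 : (1 : ℝ) < x := by exact_mod_cast hN.trans hNx
  have hLN : 0 < log N := log_pos hN1
  have hLx : 0 < log x := log_pos hx1
  have hNx' : (N : ℝ) ≤ x := Nat.cast_le.2 hNx
  rcases le_total (log x) (2 * log N) with h | h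
  · calc (N : ℝ) / log N ^ 2 ≤ x / (log x / 2) ^ 2 :=
          div_le_div₀ (by positivity) hNx' (by positivity)
            (pow_le_pow_left₀ (by positivity) (by linarith) 2)
      _ ≤ _ := by
          rw [div_pow, div_div_eq_mul_div, ← mul_div_assoc, mul_comm (x : ℝ)]
          gcongr
          norm_num
  · have hl2 : (1 / 2 : ℝ) ≤ log N :=
      le_trans (by linarith [Real.log_two_gt_d9]) (log_le_log two_pos (by exact_mod_cast hN))
    have hNs : (N : ℝ) ≤ (x : ℝ) ^ (1 / 2 : ℝ) := by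
      rw [Real.rpow_def_of_pos (by linarith), ← Real.exp_log (show (0 : ℝ) < N by linarith)]
      exact Real.exp_le_exp.2 (by linarith)
    have hlq := log_le_rpow_div (by linarith : (0 : ℝ) ≤ x) (ε := 1 / 4) (by norm_num)
    have hsq := pow_le_pow_left₀ hLx.le hlq 2
    have e : ((x : ℝ) ^ (1 / 4 : ℝ)) ^ 2 = (x : ℝ) ^ (1 / 2 : ℝ) := by
      rw [← Real.rpow_natCast, ← Real.rpow_mul (by linarith)]; norm_num
    rw [div_pow, e] at hsq
    have e2 : (x : ℝ) ^ (1 / 2 : ℝ) * (x : ℝ) ^ (1 / 2 : ℝ) = x := by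
      rw [← Real.rpow_add (by linarith)]; norm_num
    calc (N : ℝ) / log N ^ 2 ≤ (x : ℝ) ^ (1 / 2 : ℝ) / (1 / 2) ^ 2 :=
          div_le_div₀ (by positivity) hNs (by norm_num) (pow_le_pow_left₀ (by norm_num) hl2 2)
      _ ≤ _ := by
          rw [← mul_div_assoc, div_le_div_iff₀ (by norm_num) (by positivity)]
          have h5 := mul_le_mul_of_nonneg_left hsq
            (show (0 : ℝ) ≤ (x : ℝ) ^ (1 / 2 : ℝ) by positivity)
          rw [← mul_div_assoc, e2] at h5
          norm_num at h5 ⊢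
          linarith

/-- The sums of two primes, with `0` and `1`. -/
def goldbachSet : Set ℕ :=
  {n | n ≤ 1 ∨ ∃ p q : ℕ, p.Prime ∧ q.Prime ∧ p + q = n}

theorem primeCounting_sq_le (x : ℕ) :
    (Nat.primeCounting (x / 2) : ℝ) ^ 2 ≤ ∑ N ∈ Icc 1 x, (#(goldbachReps N) : ℝ) := by
  rw [← Nat.primesLE_card_eq_primeCounting, sq, ← Nat.cast_mul, ← card_product, ← Nat.cast_sum,
    Nat.cast_le, ← card_sigma]
  refine card_le_card_of_injOn (fun q => ⟨q.1 + q.2, q.1⟩) ?_ ?_
  · intro q hq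
    simp only [mem_coe, mem_product, Nat.mem_primesLE] at hq
    simp only [mem_coe, mem_sigma, mem_Icc, goldbachReps, mem_filter, mem_Ioc]
    have := hq.1.2.two_le
    refine ⟨⟨by omega, by omega⟩, ⟨by omega, by omega⟩, hq.1.2, ?_⟩
    rw [Nat.add_sub_cancel_left]
    exact hq.2.2
  · intro q _ r _ h
    simp only [Sigma.mk.injEq, heq_eq_eq] at h
    exact Prod.ext h.2 (by omega)

theorem eventually_primeCounting_half :
    ∀ᶠ x : ℕ in atTop, (x : ℝ) / (8 * log x) ≤ Nat.primeCounting (x / 2) := by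
  have ht : Tendsto (fun x : ℕ => ((x : ℝ) / 2)) atTop atTop :=
    tendsto_natCast_atTop_atTop.atTop_div_const two_pos
  filter_upwards [(PNT.Summary.prime_number_theorem.comp ht).eventually
    (lt_mem_nhds (show (1 / 2 : ℝ) < 1 by norm_num)), eventually_ge_atTop 4] with x hx h4
  simp only [Function.comp_apply] at hx
  rw [show ⌊(x : ℝ) / 2⌋₊ = x / 2 by
    rw [show (2 : ℝ) = ((2 : ℕ) : ℝ) by norm_num, Nat.floor_div_eq_div]] at hx
  have hx4 : (4 : ℝ) ≤ x := by exact_mod_cast h4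
  have hL : log ((x : ℝ) / 2) ≤ log x := log_le_log (by linarith) (by linarith)
  have hL0 : 0 < log x := log_pos (by linarith)
  rw [lt_div_iff₀ (by linarith)] at hx
  rw [div_le_iff₀ (by positivity)]
  have := mul_le_mul_of_nonneg_left hL (Nat.cast_nonneg (Nat.primeCounting (x / 2)) (α := ℝ))
  nlinarith

theorem exists_count_goldbachSet :
    ∃ c : ℝ, 0 < c ∧ ∀ᶠ x : ℕ in atTop, c * x ≤ countIn goldbachSet x := by
  classical
  obtain ⟨D, hD⟩ : ∃ D : ℝ, D = meanConst := ⟨_, rfl⟩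
  have hD0 : 0 < D := by
    rw [hD, meanConst]
    refine pow_pos ((show (0 : ℝ) < 1 / ((1 : ℕ) : ℝ) ^ (3 / 2 : ℝ) by norm_num).trans_le ?_) 2
    exact (Real.summable_one_div_nat_rpow.2 (by norm_num : (1 : ℝ) < 3 / 2)).le_tsum 1
      fun d _ => by positivity
  obtain ⟨K, hK⟩ : ∃ K : ℝ, K = 5000 * 64 := ⟨_, rfl⟩
  refine ⟨1 / (64 ^ 2 * K ^ 2 * D), by subst hK; positivity, ?_⟩
  filter_upwards [eventually_primeCounting_half, eventually_ge_atTop 2] with x hπ hx2
  have hx1 : (1 : ℝ) < x := by exact_mod_cast hx2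
  have hL : 0 < log x := log_pos hx1
  obtain ⟨G, hG⟩ : ∃ G, G = (Icc 1 x).filter fun N => (goldbachReps N).Nonempty := ⟨_, rfl⟩
  have hGle : (#G : ℝ) ≤ countIn goldbachSet x := by
    refine Nat.cast_le.2 (card_le_card fun N hN => ?_)
    simp only [hG, mem_filter, mem_Icc] at hN
    obtain ⟨p, hp⟩ := hN.2
    simp only [goldbachReps, mem_filter, mem_Ioc] at hp
    simp only [mem_filter, mem_Ioc]
    exact ⟨⟨hN.1.1, hN.1.2⟩, Or.inr ⟨p, N - p, hp.2.1, hp.2.2, by omega⟩⟩
  obtain ⟨R, hR⟩ : ∃ R : ℝ, R = ∑ N ∈ Icc 1 x, (#(goldbachReps N) : ℝ) := ⟨_, rfl⟩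
  have hR1 : ((x : ℝ) / (8 * log x)) ^ 2 ≤ R :=
    hR ▸ (pow_le_pow_left₀ (by positivity) hπ 2).trans (primeCounting_sq_le x)
  have hRG : R = ∑ N ∈ G, (#(goldbachReps N) : ℝ) := by
    rw [hR, hG, sum_filter_of_ne]
    intro N _ h
    exact card_ne_zero.1 fun h0 => h (by rw [h0, Nat.cast_zero])
  have hsq : ∀ N ∈ G, (#(goldbachReps N) : ℝ) ^ 2 ≤
      (K * (x / log x ^ 2)) ^ 2 * divSum N ^ 2 := by
    intro N hN
    simp only [hG, mem_filter, mem_Icc] at hN
    obtain ⟨p, hp⟩ := hN.2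
    simp only [goldbachReps, mem_filter, mem_Ioc] at hp
    have hN2 : 2 ≤ N := hp.2.1.two_le.trans hp.1.2
    rw [← mul_pow]
    refine pow_le_pow_left₀ (Nat.cast_nonneg _) ((card_goldbachReps_le hN2).trans ?_) 2
    have := mul_le_mul_of_nonneg_left (div_log_sq_le hN2 hN.1.2)
      (show 0 ≤ 5000 * divSum N by linarith [one_le_divSum (show N ≠ 0 by omega)])
    rw [hK]
    calc _ = 5000 * divSum N * ((N : ℝ) / log N ^ 2) := by ring
      _ ≤ _ := this
      _ = _ := by ring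
  have hCS : R ^ 2 ≤ #G * ∑ N ∈ G, (#(goldbachReps N) : ℝ) ^ 2 :=
    hRG ▸ sq_sum_le_card_mul_sum_sq
  have hsum : ∑ N ∈ G, (#(goldbachReps N) : ℝ) ^ 2 ≤
      (K * (x / log x ^ 2)) ^ 2 * (D * x) := by
    refine (sum_le_sum hsq).trans ?_
    rw [← mul_sum, hD]
    refine mul_le_mul_of_nonneg_left ((sum_le_sum_of_subset_of_nonneg ?_ ?_).trans
      (sum_divSum_sq_le x)) (sq_nonneg _)
    · rw [hG]; exact filter_subset _ _
    · intro N _ _
      exact sq_nonneg _
  have key := ((pow_le_pow_left₀ (sq_nonneg _) hR1 2).trans hCS).trans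
    (mul_le_mul_of_nonneg_left hsum (Nat.cast_nonneg _))
  refine le_trans ?_ hGle
  rw [one_div, inv_mul_le_iff₀ (by subst hK; positivity)]
  have hp : 0 < (x : ℝ) ^ 3 / log x ^ 4 := by positivity
  refine le_of_mul_le_mul_right ?_ hp
  calc (x : ℝ) * ((x : ℝ) ^ 3 / log x ^ 4)
      = 64 ^ 2 * (((x : ℝ) / (8 * log x)) ^ 2) ^ 2 := by ring
    _ ≤ 64 ^ 2 * ((#G : ℝ) * ((K * (x / log x ^ 2)) ^ 2 * (D * x))) :=
        mul_le_mul_of_nonneg_left key (by norm_num)
    _ = _ := by ring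

theorem density_goldbachSet_pos : 0 < density goldbachSet := by
  classical
  obtain ⟨c, hc, hev⟩ := exists_count_goldbachSet
  obtain ⟨x₀, hx₀⟩ := eventually_atTop.1 hev
  refine lt_of_lt_of_le (show 0 < min c (1 / ((x₀ : ℝ) + 1)) by positivity) ?_
  rw [density, le_schnirelmannDensity_iff]
  intro n hn
  rw [le_div_iff₀ (by exact_mod_cast hn)]
  rcases le_total x₀ n with h | h
  · exact (mul_le_mul_of_nonneg_right (min_le_left _ _) (Nat.cast_nonneg n)).trans (hx₀ n h)
  · refine (mul_le_mul_of_nonneg_right (min_le_right _ _) (Nat.cast_nonneg n)).trans ?_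
    refine le_trans ?_ (Nat.one_le_cast.2 (card_pos.2 ⟨1, ?_⟩))
    · rw [div_mul_eq_mul_div, div_le_one (by positivity)]
      have : (n : ℝ) ≤ x₀ := Nat.cast_le.2 h
      linarith
    · simp only [mem_filter, mem_Ioc]
      exact ⟨⟨one_pos, hn⟩, Or.inl le_rfl⟩

theorem sum_of_goldbach_list : ∀ l : List ℕ, (∀ x ∈ l, x ∈ goldbachSet) →
    ∃ (P : List ℕ) (j : ℕ), P.length + j ≤ 2 * l.length ∧ (∀ p ∈ P, p.Prime) ∧
      l.sum = P.sum + j
  | [], _ => ⟨[], 0, by simp, by simp, by simp⟩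
  | x :: l, h => by
    obtain ⟨P, j, hlen, hP, hsum⟩ :=
      sum_of_goldbach_list l fun y hy => h y (List.mem_cons_of_mem x hy)
    rcases h x (List.mem_cons_self) with hx | ⟨p, q, hp, hq, rfl⟩
    · exact ⟨P, j + x, by simp; omega, hP, by simp [hsum]; omega⟩
    · refine ⟨p :: q :: P, j, by simp; omega, ?_, by simp [hsum]; omega⟩
      simp [hp, hq]
      exact hP

theorem small_as_primes : ∀ j : ℕ, 2 ≤ j →
    ∃ P : List ℕ, P.length ≤ j ∧ (∀ p ∈ P, p.Prime) ∧ P.sum = j := by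
  intro j hj
  rcases Nat.even_or_odd j with ⟨k, hk⟩ | ⟨k, hk⟩
  · refine ⟨List.replicate k 2, by simp; omega, fun p hp => ?_, by simp; omega⟩
    rw [List.eq_of_mem_replicate hp]
    exact Nat.prime_two
  · refine ⟨3 :: List.replicate (k - 1) 2, by simp; omega, fun p hp => ?_, by simp; omega⟩
    rcases List.mem_cons.1 hp with h | h
    · exact h ▸ Nat.prime_three
    · rw [List.eq_of_mem_replicate h]
      exact Nat.prime_two

/-- **Schnirelmann's theorem.** -/
theorem primes_basis : ∃ C : ℕ, ∀ n : ℕ, 2 ≤ n →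
    ∃ l : List ℕ, l.length ≤ C ∧ (∀ p ∈ l, p.Prime) ∧ l.sum = n := by
  obtain ⟨k, hk⟩ := exists_sumsOf_eq_univ goldbachSet density_goldbachSet_pos
  refine ⟨2 * k + 2, fun n hn => ?_⟩
  obtain ⟨l, hl, hlA, hsum⟩ := (hk.symm ▸ Set.mem_univ (n - 2) : n - 2 ∈ sumsOf goldbachSet k)
  obtain ⟨P, j, hlen, hP, hs⟩ := sum_of_goldbach_list l hlA
  obtain ⟨Q, hQlen, hQ, hQs⟩ := small_as_primes (j + 2) (by omega)
  refine ⟨P ++ Q, by rw [List.length_append]; omega, fun p hp => ?_,
    by rw [List.sum_append]; omega⟩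
  rcases List.mem_append.1 hp with h | h
  · exact hP p h
  · exact hQ p h

/-- The twin prime bound. -/
theorem card_twins_le {X : ℕ} (hX : 2 ≤ X) :
    (#((Ioc 0 X).filter fun n : ℕ => n.Prime ∧ (n + 2).Prime) : ℝ) ≤
      7500 * X / log X ^ 2 := by
  have h := card_primePairs_le (a := 2) dvd_rfl (by norm_num) hX
  have hs : singularSum 2 = 3 / 2 := by
    rw [singularSum, show ((2 : ℤ).natAbs) = 2 from rfl, Nat.prime_two.divisors]
    norm_num
  rw [hs] at h
  calc (#((Ioc 0 X).filter fun n : ℕ => n.Prime ∧ (n + 2).Prime) : ℝ)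
      ≤ #(primePairs 2 X) := by
        refine Nat.cast_le.2 (card_le_card fun n hn => ?_)
        simp only [primePairs, mem_filter] at hn ⊢
        rw [show ((n : ℤ) + 2).natAbs = n + 2 by omega]
        exact hn
    _ ≤ _ := h.trans (le_of_eq (by ring))

/-- **Brun's theorem.** -/
theorem twin_reciprocals_summable :
    Summable fun p : {p : ℕ // p.Prime ∧ (p + 2).Prime} => (1 : ℝ) / (p : ℕ) := by
  obtain ⟨B, hB⟩ : ∃ B : ℕ → ℝ, B = fun j : ℕ => 60000 * (1 / ((j : ℝ) + 1) ^ 2) := ⟨_, rfl⟩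
  have hBsum : Summable B := by
    rw [hB]
    refine Summable.mul_left _ ?_
    have := (summable_nat_add_iff 1).2 (Real.summable_one_div_nat_pow.2 (one_lt_two : 1 < 2))
    simpa using this
  refine summable_of_sum_le (c := ∑' j, B j) (fun p => by positivity) fun u => ?_
  obtain ⟨S, hS⟩ : ∃ S, S = u.map (Function.Embedding.subtype _) := ⟨_, rfl⟩
  rw [show ∑ p ∈ u, (1 : ℝ) / (p : ℕ) = ∑ p ∈ S, (1 : ℝ) / (p : ℕ) by rw [hS, sum_map]; rfl,
    ← sum_fiberwise_of_maps_to (s := S) (t := S.image (Nat.log 2))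
      (fun p hp => mem_image_of_mem _ hp)]
  refine (sum_le_sum fun j _ => ?_).trans (hBsum.sum_le_tsum _ fun j _ => by rw [hB]; positivity)
  obtain ⟨T, hT⟩ : ∃ T, T = S.filter fun p => Nat.log 2 p = j := ⟨_, rfl⟩
  rw [← hT]
  have hmem : ∀ p ∈ T, p.Prime ∧ (p + 2).Prime ∧ 2 ^ j ≤ p ∧ p < 2 ^ (j + 1) := by
    intro p hp
    rw [hT, mem_filter, hS, Finset.mem_map] at hp
    obtain ⟨⟨q, -, rfl⟩, hj⟩ := hp
    exact ⟨q.2.1, q.2.2, hj ▸ Nat.pow_log_le_self 2 q.2.1.ne_zero,
      hj ▸ Nat.lt_pow_succ_log_self one_lt_two _⟩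
  have h2 : 2 ≤ 2 ^ (j + 1) := Nat.le_self_pow (Nat.succ_ne_zero j) 2
  calc ∑ p ∈ T, (1 : ℝ) / p ≤ ∑ _p ∈ T, (1 : ℝ) / (2 : ℝ) ^ j := by
        refine sum_le_sum fun p hp => one_div_le_one_div_of_le (by positivity) ?_
        exact_mod_cast (hmem p hp).2.2.1
    _ = (#T : ℝ) / (2 : ℝ) ^ j := by rw [sum_const, nsmul_eq_mul, mul_one_div]
    _ ≤ (7500 * ((2 ^ (j + 1) : ℕ) : ℝ) / log ((2 ^ (j + 1) : ℕ) : ℝ) ^ 2) / (2 : ℝ) ^ j := by
        gcongr
        refine le_trans (Nat.cast_le.2 (card_le_card fun p hp => ?_)) (card_twins_le h2)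
        obtain ⟨a, b, -, d⟩ := hmem p hp
        exact mem_filter.2 ⟨mem_Ioc.2 ⟨a.pos, d.le⟩, a, b⟩
    _ ≤ B j := by
        rw [hB]
        push_cast
        rw [Real.log_pow]
        push_cast
        have hl : (1 / 2 : ℝ) ≤ log 2 := by linarith [Real.log_two_gt_d9]
        calc 7500 * (2 : ℝ) ^ (j + 1) / (((j : ℝ) + 1) * log 2) ^ 2 / 2 ^ j
            = 15000 / log 2 ^ 2 * (1 / ((j : ℝ) + 1) ^ 2) := by
              rw [pow_succ]; field_simp; ring
          _ ≤ 60000 * (1 / ((j : ℝ) + 1) ^ 2) := by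
              gcongr
              rw [div_le_iff₀ (by positivity)]
              nlinarith

end FA.GoldbachSchnirelmann
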