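import Mathlib.NumberTheory.SelbergSieve
import Mathlib.Algebra.BigOperators.Field

/-!
# Selberg's weights

For Mathlib's bounding sieve and a level `z`, the optimal `Λ²` weights give
`siftedSum ≤ X / S + z ^ 6`, `S = ∑ g l` over `l ≤ z`, when `|rem d| ≤ d` and `ν d ≥ 1 / d`.
-/

set_option autoImplicit false

noncomputable section

namespace FA.GoldbachSchnirelmann

open Finset ArithmeticFunction BoundingSieve
open scoped ArithmeticFunction.Moebius

variable (s : BoundingSieve) (z : ℕ)

/-- The denominator of Selberg's bound. -/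
def selbergDenom : ℝ :=
  ∑ l ∈ (Nat.divisors s.prodPrimes).filter (· ≤ z), s.selbergTerms l

/-- The partial sums over multiples of `d`. -/
def selbergPart (d : ℕ) : ℝ :=
  ∑ l ∈ ((Nat.divisors s.prodPrimes).filter (· ≤ z)).filter (d ∣ ·), s.selbergTerms l

/-- Selberg's weights. -/
def selbergWeight (d : ℕ) : ℝ :=
  (μ d : ℝ) * selbergPart s z d / (s.nu d * selbergDenom s z)

theorem sum_moebius_between {l m : ℕ} (hm : Squarefree m) :
    ∑ d ∈ m.divisors.filter (l ∣ ·), (μ d : ℝ) = if m = l then (μ l : ℝ) else 0 := by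
  by_cases hlm : l ∣ m
  · obtain ⟨e, rfl⟩ := hlm
    have hl0 : l ≠ 0 := left_ne_zero_of_mul hm.ne_zero
    have he0 : e ≠ 0 := right_ne_zero_of_mul hm.ne_zero
    have hset : (l * e).divisors.filter (l ∣ ·) = e.divisors.image (l * ·) := by
      ext d
      simp only [mem_filter, Nat.mem_divisors, mem_image]
      constructor
      · rintro ⟨⟨hd, -⟩, c, rfl⟩
        exact ⟨c, ⟨Nat.dvd_of_mul_dvd_mul_left (Nat.pos_of_ne_zero hl0) hd, he0⟩, rfl⟩
      · rintro ⟨c, ⟨hc, -⟩, rfl⟩
        exact ⟨⟨mul_dvd_mul_left l hc, hm.ne_zero⟩, dvd_mul_right l c⟩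
    rw [hset, sum_image fun a _ b _ h => Nat.eq_of_mul_eq_mul_left (Nat.pos_of_ne_zero hl0) h]
    have hcop : l.Coprime e := (Nat.squarefree_mul_iff.1 hm).1
    have : ∀ c ∈ e.divisors, (μ (l * c) : ℝ) = μ l * μ c := fun c hc => by
      rw [isMultiplicative_moebius.map_mul_of_coprime
        (hcop.coprime_dvd_right (Nat.dvd_of_mem_divisors hc))]
      push_cast
      rfl
    rw [sum_congr rfl this, ← mul_sum]
    have hs := coe_mul_zeta_apply (f := μ) (x := e)
    rw [moebius_mul_coe_zeta, one_apply] at hs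
    rw [← Int.cast_sum, ← hs]
    by_cases he : e = 1
    · simp [he]
    · rw [if_neg he, if_neg fun h => he ?_]
      · simp
      · exact Nat.eq_of_mul_eq_mul_left (Nat.pos_of_ne_zero hl0) (h.trans (mul_one l).symm)
  · rw [if_neg (fun h : m = l => hlm (h ▸ dvd_rfl)), filter_eq_empty_iff.2 fun d hd hld =>
      hlm (hld.trans (Nat.dvd_of_mem_divisors hd)), sum_empty]

theorem one_mem_level (hz : 1 ≤ z) : 1 ∈ (Nat.divisors s.prodPrimes).filter (· ≤ z) :=
  mem_filter.2 ⟨Nat.one_mem_divisors.2 prodPrimes_ne_zero, hz⟩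

theorem selbergTerms_nonneg_of_mem {l : ℕ}
    (hl : l ∈ (Nat.divisors s.prodPrimes).filter (· ≤ z)) : 0 ≤ s.selbergTerms l :=
  (selbergTerms_pos (Nat.dvd_of_mem_divisors (mem_filter.1 hl).1)).le

theorem selbergDenom_pos (hz : 1 ≤ z) : 0 < selbergDenom s z :=
  sum_pos (fun _ hl => selbergTerms_pos (Nat.dvd_of_mem_divisors (mem_filter.1 hl).1))
    ⟨1, one_mem_level s z hz⟩

theorem selbergWeight_one (hz : 1 ≤ z) : selbergWeight s z 1 = 1 := by
  have : selbergPart s z 1 = selbergDenom s z := by simp [selbergPart, selbergDenom]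
  rw [selbergWeight, this, s.nu_mult.map_one, moebius_apply_one, Int.cast_one, one_mul]
  exact div_self (selbergDenom_pos s z hz).ne'

theorem selbergWeight_eq_zero {d : ℕ} (hd : z < d) : selbergWeight s z d = 0 := by
  have : selbergPart s z d = 0 := by
    refine sum_eq_zero fun l hl => ?_
    simp only [mem_filter, Nat.mem_divisors] at hl
    obtain ⟨⟨⟨hlP, hP⟩, hlz⟩, hdl⟩ := hl
    exact absurd (Nat.le_of_dvd (Nat.pos_of_ne_zero (ne_zero_of_dvd_ne_zero hP hlP)) hdl)
      (by omega)
  simp [selbergWeight, this]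

theorem abs_selbergWeight_le (hz : 1 ≤ z) {d : ℕ} (hd : d ∈ Nat.divisors s.prodPrimes) :
    |selbergWeight s z d| ≤ (s.nu d)⁻¹ := by
  have hν := nu_pos_of_dvd_prodPrimes (Nat.dvd_of_mem_divisors hd)
  have hS := selbergDenom_pos s z hz
  have h0 : 0 ≤ selbergPart s z d :=
    sum_nonneg fun l hl => selbergTerms_nonneg_of_mem s z (mem_filter.1 hl).1
  have h1 : selbergPart s z d ≤ selbergDenom s z :=
    sum_le_sum_of_subset_of_nonneg (filter_subset _ _)
      fun l hl _ => selbergTerms_nonneg_of_mem s z hl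
  rw [selbergWeight, abs_div, abs_mul, abs_of_pos (mul_pos hν hS), abs_of_nonneg h0,
    div_le_iff₀ (mul_pos hν hS), ← mul_assoc, inv_mul_cancel₀ hν.ne', one_mul]
  refine (mul_le_of_le_one_left h0 ?_).trans h1
  exact_mod_cast abs_moebius_le_one

theorem sum_multiples_weight (hz : 1 ≤ z) {l : ℕ} (hl : l ∈ Nat.divisors s.prodPrimes) :
    (∑ d ∈ Nat.divisors s.prodPrimes, if l ∣ d then s.nu d * selbergWeight s z d else 0) =
      if l ≤ z then (μ l : ℝ) * s.selbergTerms l / selbergDenom s z else 0 := by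
  have hS := (selbergDenom_pos s z hz).ne'
  calc (∑ d ∈ Nat.divisors s.prodPrimes, if l ∣ d then s.nu d * selbergWeight s z d else 0)
      = (∑ m ∈ (Nat.divisors s.prodPrimes).filter (· ≤ z),
          ∑ d ∈ m.divisors.filter (l ∣ ·), (μ d : ℝ) * s.selbergTerms m) / selbergDenom s z := by
        rw [sum_div, ← sum_filter]
        rw [show (∑ m ∈ (Nat.divisors s.prodPrimes).filter (· ≤ z),
            (∑ d ∈ m.divisors.filter (l ∣ ·), (μ d : ℝ) * s.selbergTerms m) / selbergDenom s z) =
          ∑ d ∈ (Nat.divisors s.prodPrimes).filter (l ∣ ·),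
            ∑ m ∈ ((Nat.divisors s.prodPrimes).filter (· ≤ z)).filter (d ∣ ·),
              (μ d : ℝ) * s.selbergTerms m / selbergDenom s z from ?_]
        · refine sum_congr rfl fun d hd => ?_
          have hν := nu_ne_zero (Nat.dvd_of_mem_divisors (mem_filter.1 hd).1)
          rw [selbergWeight, selbergPart, mul_sum, sum_div, mul_sum]
          refine sum_congr rfl fun m _ => ?_
          field_simp
        · simp_rw [sum_div]
          refine sum_comm' fun m d => ?_
          simp only [mem_filter, Nat.mem_divisors]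
          constructor
          · rintro ⟨⟨hm, hmz⟩, ⟨hdm, -⟩, hld⟩
            exact ⟨⟨⟨hm, hmz⟩, hdm⟩, ⟨hdm.trans hm.1, hm.2⟩, hld⟩
          · rintro ⟨⟨⟨hm, hmz⟩, hdm⟩, -, hld⟩
            exact ⟨⟨hm, hmz⟩, ⟨hdm, ne_zero_of_dvd_ne_zero hm.2 hm.1⟩, hld⟩
    _ = _ := by
        simp_rw [← sum_mul]
        rw [sum_congr rfl fun m hm => by
          rw [sum_moebius_between (l := l)
            (squarefree_of_mem_divisors_prodPrimes (mem_filter.1 hm).1), ite_mul, zero_mul],
          sum_ite_eq']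
        simp only [mem_filter, hl, true_and, ite_div, zero_div]

theorem mainSum_selbergWeight (hz : 1 ≤ z) :
    s.mainSum (lambdaSquared (selbergWeight s z)) = 1 / selbergDenom s z := by
  have hS := (selbergDenom_pos s z hz).ne'
  rw [mainSum_lambdaSquared_eq_sum_mul_sum_sq,
    sum_congr rfl fun l hl => by rw [sum_multiples_weight s z hz hl]]
  have : ∀ l ∈ Nat.divisors s.prodPrimes, (s.selbergTerms l)⁻¹ *
      (if l ≤ z then (μ l : ℝ) * s.selbergTerms l / selbergDenom s z else 0) ^ 2 =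
      (if l ≤ z then s.selbergTerms l else 0) / selbergDenom s z ^ 2 := by
    intro l hl
    have hg := (selbergTerms_pos (Nat.dvd_of_mem_divisors hl)).ne'
    have hμ : (μ l : ℝ) ^ 2 = 1 := by
      exact_mod_cast moebius_sq_eq_one_of_squarefree (squarefree_of_mem_divisors_prodPrimes hl)
    split_ifs
    · rw [div_pow, mul_pow, hμ]
      field_simp
    · simp
  rw [sum_congr rfl this, ← sum_div, ← sum_filter, selbergDenom]
  rw [selbergDenom] at hS
  field_simp

theorem errSum_selbergWeight_le (hz : 1 ≤ z)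
    (hrem : ∀ d ∈ Nat.divisors s.prodPrimes, |s.rem d| ≤ d)
    (hnu : ∀ d ∈ Nat.divisors s.prodPrimes, 1 / (d : ℝ) ≤ s.nu d) :
    s.errSum (lambdaSquared (selbergWeight s z)) ≤ (z : ℝ) ^ 6 := by
  obtain ⟨w, hw⟩ : ∃ w, w = selbergWeight s z := ⟨_, rfl⟩
  rw [← hw]
  set D := Nat.divisors s.prodPrimes with hD
  calc s.errSum (lambdaSquared w)
      ≤ ∑ d ∈ D, ∑ d1 ∈ D, ∑ d2 ∈ D,
          if d = Nat.lcm d1 d2 then |w d1| * |w d2| * |s.rem d| else 0 := by
        refine sum_le_sum fun d hd => ?_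
        have hsub : d.divisors ⊆ D :=
          Nat.divisors_subset_of_dvd prodPrimes_ne_zero (Nat.dvd_of_mem_divisors hd)
        refine (mul_le_mul_of_nonneg_right ((abs_sum_le_sum_abs _ _).trans
          (sum_le_sum fun d1 _ => abs_sum_le_sum_abs _ _)) (abs_nonneg _)).trans ?_
        rw [sum_mul]
        simp_rw [sum_mul]
        refine (le_of_eq ?_).trans (sum_le_sum_of_subset_of_nonneg hsub ?_) |>.trans
          (sum_le_sum fun d1 _ => sum_le_sum_of_subset_of_nonneg hsub ?_)
        · refine sum_congr rfl fun d1 _ => sum_congr rfl fun d2 _ => ?_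
          split_ifs with h <;> simp [abs_mul]
        · intro d1 _ _
          exact sum_nonneg fun d2 _ => by split_ifs <;> positivity
        · intro d2 _ _
          split_ifs <;> positivity
    _ = ∑ d1 ∈ D, ∑ d2 ∈ D, |w d1| * |w d2| * |s.rem (Nat.lcm d1 d2)| := by
        rw [sum_comm]
        refine sum_congr rfl fun d1 h1 => ?_
        rw [sum_comm]
        refine sum_congr rfl fun d2 h2 => ?_
        rw [sum_ite_eq', if_pos]
        exact Nat.mem_divisors.2 ⟨Nat.lcm_dvd (Nat.dvd_of_mem_divisors h1)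
          (Nat.dvd_of_mem_divisors h2), prodPrimes_ne_zero⟩
    _ = ∑ d1 ∈ D.filter (· ≤ z), ∑ d2 ∈ D.filter (· ≤ z),
          |w d1| * |w d2| * |s.rem (Nat.lcm d1 d2)| := by
        have h0 : ∀ d, ¬ d ≤ z → |w d| = 0 := fun d hd => by
          rw [hw, selbergWeight_eq_zero s z (not_le.1 hd), abs_zero]
        simp only [sum_filter]
        refine sum_congr rfl fun d1 _ => ?_
        split_ifs with h1
        · refine sum_congr rfl fun d2 _ => ?_
          split_ifs with h2
          · rfl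
          · simp [h0 d2 h2]
        · exact sum_eq_zero fun d2 _ => by simp [h0 d1 h1]
    _ ≤ ∑ _d1 ∈ D.filter (· ≤ z), ∑ _d2 ∈ D.filter (· ≤ z), (z : ℝ) ^ 4 := by
        refine sum_le_sum fun d1 h1 => sum_le_sum fun d2 h2 => ?_
        rw [mem_filter] at h1 h2
        have hw' : ∀ d ∈ D, d ≤ z → |w d| ≤ z := fun d hd hdz => by
          refine hw ▸ (abs_selbergWeight_le s z hz hd).trans ?_
          refine (inv_anti₀ ?_ (hnu d hd)).trans ?_
          · have := Nat.pos_of_mem_divisors hd
            positivity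
          · rw [one_div, inv_inv]
            exact_mod_cast hdz
        have hl : (Nat.lcm d1 d2 : ℝ) ≤ (z : ℝ) * z := by
          exact_mod_cast (Nat.le_of_dvd (Nat.mul_pos (Nat.pos_of_mem_divisors h1.1)
            (Nat.pos_of_mem_divisors h2.1)) (Nat.lcm_dvd_mul d1 d2)).trans
              (Nat.mul_le_mul h1.2 h2.2)
        have hr := (hrem (Nat.lcm d1 d2) (Nat.mem_divisors.2 ⟨Nat.lcm_dvd
          (Nat.dvd_of_mem_divisors h1.1) (Nat.dvd_of_mem_divisors h2.1),
            prodPrimes_ne_zero⟩)).trans hl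
        calc |w d1| * |w d2| * |s.rem (Nat.lcm d1 d2)| ≤ z * z * (z * z) :=
              mul_le_mul (mul_le_mul (hw' d1 h1.1 h1.2) (hw' d2 h2.1 h2.2) (abs_nonneg _)
                (Nat.cast_nonneg _)) hr (abs_nonneg _) (by positivity)
          _ = _ := by ring
    _ ≤ (z : ℝ) ^ 6 := by
        simp only [sum_const, nsmul_eq_mul]
        have hc : ((D.filter (· ≤ z)).card : ℝ) ≤ z := by
          refine Nat.cast_le.2 ((card_le_card (t := Icc 1 z) fun d hd => ?_).trans
            (by rw [Nat.card_Icc]; omega))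
          rw [mem_filter] at hd
          exact mem_Icc.2 ⟨Nat.pos_of_mem_divisors hd.1, hd.2⟩
        calc _ ≤ (z : ℝ) * (z * (z : ℝ) ^ 4) := by gcongr
          _ = _ := by ring

/-- **Selberg's upper bound.** -/
theorem siftedSum_le (hz : 1 ≤ z) (hrem : ∀ d ∈ Nat.divisors s.prodPrimes, |s.rem d| ≤ d)
    (hnu : ∀ d ∈ Nat.divisors s.prodPrimes, 1 / (d : ℝ) ≤ s.nu d) :
    s.siftedSum ≤ s.totalMass / selbergDenom s z + (z : ℝ) ^ 6 := by
  refine (siftedSum_le_mainSum_errSum_of_upperMoebius _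
    (upperMoebius_lambdaSquared _ (selbergWeight_one s z hz))).trans ?_
  rw [mainSum_selbergWeight s z hz, mul_one_div]
  gcongr
  exact errSum_selbergWeight_le s z hz hrem hnu

end FA.GoldbachSchnirelmann
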